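/-
S48 (Deligne-Serre), piece "NULL" (helper2): a finite system of polynomial equations over a domain
`R` with no solution in an algebraically closed field `K ⊇ k ⊇ R` (`k` = "fractions of `R`")
forces a nonzero constant `c ∈ R` into the ideal of the equations over `R`; hence the system has
no solution modulo any `φ : R → L` with `φ c ≠ 0`.

* `exists_const_mem_span`  (Nullstellensatz + clearing denominators);
* `map_const_eq_zero_of_solution`.
-/
import Mathlib

set_option autoImplicit false

namespace Fermat.Agent.S48.Null

open MvPolynomial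

section Abstract

variable {R k K : Type*} [CommRing R] [Field k] [Field K] [Algebra R k] [Algebra k K]
  {σ ι : Type*}

/-- Clearing the denominators of one polynomial. -/
theorem exists_clear_one
    (hden : ∀ z : k, ∃ c r : R, algebraMap R k c ≠ 0 ∧ algebraMap R k r = algebraMap R k c * z)
    (H : MvPolynomial σ k) :
    ∃ (c : R) (H' : MvPolynomial σ R), algebraMap R k c ≠ 0 ∧
      MvPolynomial.map (algebraMap R k) H' = C (algebraMap R k c) * H := by
  induction H using MvPolynomial.induction_on' with
  | monomial u a =>
    obtain ⟨c, r, hc, hr⟩ := hden a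
    refine ⟨c, monomial u r, hc, ?_⟩
    rw [map_monomial, hr, C_mul_monomial]
  | add p q hp hq =>
    obtain ⟨c₁, P, hc₁, hP⟩ := hp
    obtain ⟨c₂, Q, hc₂, hQ⟩ := hq
    refine ⟨c₁ * c₂, C c₂ * P + C c₁ * Q, ?_, ?_⟩
    · rw [map_mul]
      exact mul_ne_zero hc₁ hc₂
    · rw [map_add, map_mul, map_mul, hP, hQ, map_C, map_C, map_mul, C_mul]
      ring

/-- Clearing the denominators of finitely many polynomials. -/
theorem exists_clear_finset
    (hden : ∀ z : k, ∃ c r : R, algebraMap R k c ≠ 0 ∧ algebraMap R k r = algebraMap R k c * z)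
    (s : Finset ι) (H : ι → MvPolynomial σ k) :
    ∃ (c : R) (H' : ι → MvPolynomial σ R), algebraMap R k c ≠ 0 ∧
      ∀ i ∈ s, MvPolynomial.map (algebraMap R k) (H' i) = C (algebraMap R k c) * H i := by
  classical
  induction s using Finset.induction_on with
  | empty => exact ⟨1, fun _ => 0, by rw [map_one]; exact one_ne_zero, by simp⟩
  | insert a s ha ih =>
    obtain ⟨c, H', hc, hH'⟩ := ih
    obtain ⟨c₁, P, hc₁, hP⟩ := exists_clear_one hden (H a)
    refine ⟨c * c₁, fun i => if i = a then C c * P else C c₁ * H' i, ?_, ?_⟩
    · rw [map_mul]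
      exact mul_ne_zero hc hc₁
    · intro i hi
      rw [Finset.mem_insert] at hi
      by_cases hia : i = a
      · subst hia
        simp only [if_true]
        rw [map_mul, hP, map_C, map_mul, C_mul]
        ring
      · rcases hi with hi | hi
        · exact absurd hi hia
        simp only [if_neg hia]
        rw [map_mul, hH' i hi, map_C, map_mul, C_mul]
        ring

/-- **Nullstellensatz with denominators cleared**: if the equations `F i = 0` have no common
solution in the algebraically closed field `K`, a constant `c` of `R`, nonzero in `k`, lies in the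
ideal generated by the `F i` over `R`. -/
theorem exists_const_mem_span [Algebra R K] [IsScalarTower R k K] [IsAlgClosed K] [Finite σ]
    [Fintype ι]
    (hinj : Function.Injective (algebraMap R k))
    (hden : ∀ z : k, ∃ c r : R, algebraMap R k c ≠ 0 ∧ algebraMap R k r = algebraMap R k c * z)
    (F : ι → MvPolynomial σ R)
    (hno : ∀ x : σ → K, ∃ i, aeval x (F i) ≠ 0) :
    ∃ c : R, c ≠ 0 ∧ (C c : MvPolynomial σ R) ∈ Ideal.span (Set.range F) := by
  classical
  -- the ideal over `k`
  have hzero : zeroLocus K (Ideal.span (Set.range fun i => MvPolynomial.map (algebraMap R k) (F i)))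
      = ∅ := by
    rw [Set.eq_empty_iff_forall_notMem]
    intro x hx
    obtain ⟨i, hi⟩ := hno x
    apply hi
    have h1 := hx (MvPolynomial.map (algebraMap R k) (F i))
      (Ideal.subset_span ⟨i, rfl⟩)
    rw [aeval_def, eval₂_map, ← IsScalarTower.algebraMap_eq] at h1
    rw [aeval_def]
    exact h1
  have htop : Ideal.span (Set.range fun i => MvPolynomial.map (algebraMap R k) (F i))
      = (⊤ : Ideal (MvPolynomial σ k)) := by
    have h1 := vanishingIdeal_zeroLocus_eq_radical (K := K)
      (Ideal.span (Set.range fun i => MvPolynomial.map (algebraMap R k) (F i)))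
    rw [hzero, vanishingIdeal_empty] at h1
    exact Ideal.radical_eq_top.mp h1.symm
  have hone : (1 : MvPolynomial σ k) ∈
      Ideal.span (Set.range fun i => MvPolynomial.map (algebraMap R k) (F i)) := by
    rw [htop]
    exact Submodule.mem_top
  obtain ⟨H, hH⟩ := (Ideal.mem_span_range_iff_exists_fun).mp hone
  obtain ⟨c, H', hc, hH'⟩ := exists_clear_finset hden Finset.univ H
  refine ⟨c, fun h0 => hc (by rw [h0, map_zero]), ?_⟩
  have key : (C c : MvPolynomial σ R) = ∑ i, H' i * F i := by
    apply MvPolynomial.map_injective _ hinj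
    rw [map_C, map_sum]
    calc (C (algebraMap R k c) : MvPolynomial σ k)
        = C (algebraMap R k c) * ∑ i, H i * MvPolynomial.map (algebraMap R k) (F i) := by
          rw [hH, mul_one]
      _ = ∑ i, (C (algebraMap R k c) * H i) * MvPolynomial.map (algebraMap R k) (F i) := by
          rw [Finset.mul_sum]
          exact Finset.sum_congr rfl fun i _ => (mul_assoc _ _ _).symm
      _ = ∑ i, MvPolynomial.map (algebraMap R k) (H' i * F i) := by
          refine Finset.sum_congr rfl fun i hi => ?_
          rw [map_mul, hH' i hi]
  rw [key]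
  exact Ideal.sum_mem _ fun i _ => Ideal.mul_mem_left _ _ (Ideal.subset_span ⟨i, rfl⟩)

/-- A constant in the ideal of the equations is killed by every `φ : R → L` modulo which the
equations have a solution. -/
theorem map_const_eq_zero_of_solution {L : Type*} [CommRing L] (F : ι → MvPolynomial σ R) {c : R}
    (hc : (C c : MvPolynomial σ R) ∈ Ideal.span (Set.range F)) (φ : R →+* L) (x : σ → L)
    (hx : ∀ i, eval₂ φ x (F i) = 0) : φ c = 0 := by
  have hle : Ideal.span (Set.range F) ≤ RingHom.ker (eval₂Hom φ x) := by
    rw [Ideal.span_le]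
    rintro _ ⟨i, rfl⟩
    exact hx i
  have h1 := hle hc
  rw [RingHom.mem_ker] at h1
  simpa using h1

end Abstract

end Fermat.Agent.S48.Null
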