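/-
S48 (Deligne-Serre), piece "NULL" (helper2), file 2: the case `R = ℤ̄ = integralClosure ℤ ℂ`.

`exists_complex_solution`: a finite system of polynomial equations with coefficients in `ℤ̄` which
has a solution modulo `φ : ℤ̄ → k` for fields `k` of arbitrarily large characteristic has a
solution in `ℂ`.
-/
import Fermat.Agent.S48.Null.Abstract

set_option autoImplicit false
set_option linter.style.haveILetI false

namespace Fermat.Agent.S48.Null

open MvPolynomial

/-- `ℤ̄ → 𝔸`, the algebraic integers inside the algebraic numbers of `ℂ`. -/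
noncomputable def zbarToAlg : integralClosure ℤ ℂ →+* algebraicClosure ℚ ℂ where
  toFun x := ⟨x.1, by
    rw [mem_algebraicClosure_iff]
    exact (x.2.tower_top (A := ℚ)).isAlgebraic⟩
  map_one' := rfl
  map_mul' _ _ := rfl
  map_zero' := rfl
  map_add' _ _ := rfl

theorem zbarToAlg_coe (x : integralClosure ℤ ℂ) : ((zbarToAlg x : algebraicClosure ℚ ℂ) : ℂ) = x :=
  rfl

theorem zbarToAlg_injective : Function.Injective zbarToAlg := by
  intro x y h
  apply Subtype.ext
  have := congrArg (fun z : algebraicClosure ℚ ℂ => (z : ℂ)) h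
  exact this

/-- Every algebraic number is a quotient of an algebraic integer by a nonzero integer. -/
theorem zbar_den (z : algebraicClosure ℚ ℂ) :
    ∃ c r : integralClosure ℤ ℂ, zbarToAlg c ≠ 0 ∧ zbarToAlg r = zbarToAlg c * z := by
  have hz : IsAlgebraic ℚ (z : ℂ) := mem_algebraicClosure_iff.mp z.2
  have hz' : IsAlgebraic ℤ (z : ℂ) := (IsFractionRing.isAlgebraic_iff ℤ ℚ ℂ).mpr hz
  obtain ⟨y, hy0, hy⟩ := hz'.exists_integral_multiple
  refine ⟨(y : integralClosure ℤ ℂ), ⟨y • (z : ℂ), hy⟩, ?_, ?_⟩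
  · intro h0
    have h1 := congrArg (fun w : algebraicClosure ℚ ℂ => (w : ℂ)) h0
    simp only [zbarToAlg_coe] at h1
    apply hy0
    have h2 : ((y : ℤ) : ℂ) = 0 := by simpa using h1
    exact_mod_cast h2
  · apply Subtype.ext
    show (y • (z : ℂ)) = (((y : integralClosure ℤ ℂ)) : ℂ) * (z : ℂ)
    rw [zsmul_eq_mul]
    simp

/-- A nonzero algebraic integer divides a nonzero rational integer. -/
theorem exists_int_multiple (c : integralClosure ℤ ℂ) (hc : c ≠ 0) :
    ∃ a : ℤ, a ≠ 0 ∧ ∃ b : integralClosure ℤ ℂ, (a : integralClosure ℤ ℂ) = c * b := by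
  have hc' : (c : ℂ) ≠ 0 := fun h => hc (Subtype.ext h)
  have halg : IsAlgebraic ℤ ((c : ℂ)⁻¹) := by
    have h1 : IsAlgebraic ℤ (c : ℂ) := c.2.isAlgebraic
    exact h1.inv
  obtain ⟨y, hy0, hy⟩ := halg.exists_integral_multiple
  refine ⟨y, hy0, ⟨y • (c : ℂ)⁻¹, hy⟩, ?_⟩
  apply Subtype.ext
  show ((y : integralClosure ℤ ℂ) : ℂ) = (c : ℂ) * (y • (c : ℂ)⁻¹)
  rw [zsmul_eq_mul]
  have h2 : ((y : integralClosure ℤ ℂ) : ℂ) = (y : ℂ) := by simp
  rw [h2]
  field_simp

/-- **Solutions in arbitrarily large characteristic give a complex solution.** -/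
theorem exists_complex_solution {σ ι : Type} [Finite σ] [Finite ι]
    (F : ι → MvPolynomial σ (integralClosure ℤ ℂ))
    (h : ∀ N : ℕ, ∃ ℓ : ℕ, N < ℓ ∧ ∃ (k : Type) (_ : CommRing k) (_ : CharP k ℓ)
      (φ : integralClosure ℤ ℂ →+* k) (x : σ → k), ∀ i, eval₂ φ x (F i) = 0) :
    ∃ x : σ → ℂ, ∀ i, aeval x (F i) = 0 := by
  classical
  by_contra hcon
  have hno : ∀ x : σ → ℂ, ∃ i, aeval x (F i) ≠ 0 := by
    intro x
    by_contra h1
    exact hcon ⟨x, fun i => by_contra fun h2 => h1 ⟨i, h2⟩⟩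
  haveI : Fintype ι := Fintype.ofFinite ι
  letI : Algebra (integralClosure ℤ ℂ) (algebraicClosure ℚ ℂ) := zbarToAlg.toAlgebra
  haveI : IsScalarTower (integralClosure ℤ ℂ) (algebraicClosure ℚ ℂ) ℂ :=
    IsScalarTower.of_algebraMap_eq fun _ => rfl
  obtain ⟨c, hc, hmem⟩ := exists_const_mem_span (R := integralClosure ℤ ℂ)
    (k := algebraicClosure ℚ ℂ) (K := ℂ) zbarToAlg_injective zbar_den F hno
  obtain ⟨a, ha, b, hab⟩ := exists_int_multiple c hc
  obtain ⟨ℓ, hℓ, k, _, _, φ, x, hx⟩ := h a.natAbs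
  have h1 : φ c = 0 := map_const_eq_zero_of_solution F hmem φ x hx
  have h2 : ((a : ℤ) : k) = 0 := by
    have h3 := congrArg φ hab
    rw [map_mul, h1, zero_mul, map_intCast] at h3
    exact h3
  have h4 : (ℓ : ℤ) ∣ a := (CharP.intCast_eq_zero_iff k ℓ a).mp h2
  have h5 : ℓ ∣ a.natAbs := Int.natCast_dvd.mp h4
  have h6 : ℓ ≤ a.natAbs := Nat.le_of_dvd (Int.natAbs_pos.mpr ha) h5
  omega

end Fermat.Agent.S48.Null
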