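/-
S48 (Deligne-Serre), piece "NULL" (helper2), file 3: representations.

`exists_complex_rep`: let `G` be a finite group and `t, d : G → ℤ̄`.  If for fields `k` of
arbitrarily large characteristic there are `φ : ℤ̄ → k` and a representation `r : G → GL₂(k)` with
`tr r(g) = φ (t g)`, `det r(g) = φ (d g)`, then there is `ρ : G → GL₂(ℂ)` with `tr ρ(g) = t g`,
`det ρ(g) = d g`.   (This replaces the lifting of mod `ℓ` representations to characteristic `0`
in the proof of Deligne-Serre.)
-/
import Fermat.Agent.S48.Null.Zbar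

set_option autoImplicit false

namespace Fermat.Agent.S48.Null

open MvPolynomial

section Rep

variable {G : Type} [Group G]

/-- The unknowns: the entries of the matrices `X_g`. -/
abbrev RepVar (G : Type) : Type := G × Fin 2 × Fin 2

/-- The equations: multiplicativity, unit, traces, determinants. -/
abbrev RepIdx (G : Type) : Type := (G × G × Fin 2 × Fin 2) ⊕ ((Fin 2 × Fin 2) ⊕ (G ⊕ G))

/-- The system of equations of a representation with prescribed traces and determinants. -/
noncomputable def repEq {R : Type} [CommRing R] (t d : G → R) :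
    RepIdx G → MvPolynomial (RepVar G) R
  | Sum.inl (g, h, i, j) => ∑ m : Fin 2, X (g, i, m) * X (h, m, j) - X (g * h, i, j)
  | Sum.inr (Sum.inl (i, j)) => X (1, i, j) - C (if i = j then 1 else 0)
  | Sum.inr (Sum.inr (Sum.inl g)) => X (g, 0, 0) + X (g, 1, 1) - C (t g)
  | Sum.inr (Sum.inr (Sum.inr g)) =>
      X (g, 0, 0) * X (g, 1, 1) - X (g, 0, 1) * X (g, 1, 0) - C (d g)

/-- A family of matrices solves the system iff it is a representation with the prescribed traces
and determinants. -/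
theorem repEq_solution_iff {R L : Type} [CommRing R] [CommRing L] (t d : G → R) (φ : R →+* L)
    (A : G → Matrix (Fin 2) (Fin 2) L) :
    (∀ e : RepIdx G, eval₂ φ (fun v : RepVar G => A v.1 v.2.1 v.2.2) (repEq t d e) = 0) ↔
      (∀ g h, A (g * h) = A g * A h) ∧ A 1 = 1 ∧ (∀ g, (A g).trace = φ (t g)) ∧
        ∀ g, (A g).det = φ (d g) := by
  constructor
  · intro h
    refine ⟨fun g g' => ?_, ?_, fun g => ?_, fun g => ?_⟩
    · ext i j
      have h1 := h (Sum.inl (g, g', i, j))
      simp only [repEq, eval₂_sub, eval₂_sum, eval₂_mul, eval₂_X] at h1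
      rw [Matrix.mul_apply]
      exact (sub_eq_zero.mp h1).symm
    · ext i j
      have h1 := h (Sum.inr (Sum.inl (i, j)))
      simp only [repEq, eval₂_sub, eval₂_X, eval₂_C] at h1
      rw [Matrix.one_apply, sub_eq_zero.mp h1]
      split_ifs <;> simp
    · have h1 := h (Sum.inr (Sum.inr (Sum.inl g)))
      simp only [repEq, eval₂_sub, eval₂_add, eval₂_X, eval₂_C] at h1
      rw [Matrix.trace_fin_two]
      exact sub_eq_zero.mp h1
    · have h1 := h (Sum.inr (Sum.inr (Sum.inr g)))
      simp only [repEq, eval₂_sub, eval₂_mul, eval₂_X, eval₂_C] at h1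
      rw [Matrix.det_fin_two]
      exact sub_eq_zero.mp h1
  · rintro ⟨hmul, hone, htr, hdet⟩ e
    rcases e with ⟨g, g', i, j⟩ | ⟨i, j⟩ | g | g
    · simp only [repEq, eval₂_sub, eval₂_sum, eval₂_mul, eval₂_X]
      rw [hmul, Matrix.mul_apply, sub_self]
    · simp only [repEq, eval₂_sub, eval₂_X, eval₂_C]
      rw [hone, Matrix.one_apply]
      split_ifs <;> simp
    · simp only [repEq, eval₂_sub, eval₂_add, eval₂_X, eval₂_C]
      rw [← htr, Matrix.trace_fin_two, sub_self]
    · simp only [repEq, eval₂_sub, eval₂_mul, eval₂_X, eval₂_C]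
      rw [← hdet, Matrix.det_fin_two, sub_self]

/-- **Residual representations in arbitrarily large characteristic give a complex
representation** with the prescribed traces and determinants. -/
theorem exists_complex_rep [Finite G] (t d : G → integralClosure ℤ ℂ)
    (h : ∀ N : ℕ, ∃ ℓ : ℕ, N < ℓ ∧ ∃ (k : Type) (_ : Field k) (_ : CharP k ℓ)
      (φ : integralClosure ℤ ℂ →+* k) (r : G →* GL (Fin 2) k),
      ∀ g, (r g : Matrix (Fin 2) (Fin 2) k).trace = φ (t g) ∧
        (r g : Matrix (Fin 2) (Fin 2) k).det = φ (d g)) :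
    ∃ ρ : G →* GL (Fin 2) ℂ, ∀ g,
      (ρ g : Matrix (Fin 2) (Fin 2) ℂ).trace = (t g : ℂ) ∧
        (ρ g : Matrix (Fin 2) (Fin 2) ℂ).det = (d g : ℂ) := by
  classical
  have hsol : ∀ N : ℕ, ∃ ℓ : ℕ, N < ℓ ∧ ∃ (k : Type) (_ : CommRing k) (_ : CharP k ℓ)
      (φ : integralClosure ℤ ℂ →+* k) (x : RepVar G → k), ∀ e, eval₂ φ x (repEq t d e) = 0 := by
    intro N
    obtain ⟨ℓ, hℓ, k, hk, hchar, φ, r, hr⟩ := h N
    refine ⟨ℓ, hℓ, k, inferInstance, hchar, φ,
      fun v => (r v.1 : Matrix (Fin 2) (Fin 2) k) v.2.1 v.2.2, ?_⟩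
    refine (repEq_solution_iff t d φ (fun g => (r g : Matrix (Fin 2) (Fin 2) k))).mpr
      ⟨fun g g' => ?_, ?_, fun g => (hr g).1, fun g => (hr g).2⟩
    · rw [map_mul]; rfl
    · rw [map_one]; rfl
  obtain ⟨x, hx⟩ := exists_complex_solution (repEq t d) hsol
  have hx' : ∀ e : RepIdx G,
      eval₂ (algebraMap (integralClosure ℤ ℂ) ℂ)
        (fun v : RepVar G => (Matrix.of fun i j => x (v.1, i, j) : Matrix (Fin 2) (Fin 2) ℂ)
          v.2.1 v.2.2) (repEq t d e) = 0 := by
    intro e
    have := hx e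
    rw [aeval_def] at this
    exact this
  obtain ⟨hmul, hone, htr, hdet⟩ := (repEq_solution_iff t d (algebraMap (integralClosure ℤ ℂ) ℂ)
    (fun g => (Matrix.of fun i j => x (g, i, j) : Matrix (Fin 2) (Fin 2) ℂ))).mp hx'
  let A : G →* Matrix (Fin 2) (Fin 2) ℂ :=
    { toFun := fun g => Matrix.of fun i j => x (g, i, j)
      map_one' := hone
      map_mul' := hmul }
  refine ⟨A.toHomUnits, fun g => ⟨htr g, hdet g⟩⟩

end Rep

end Fermat.Agent.S48.Null
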